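/-
S27lib / U / B / GermMap (helper9).

Functoriality of `Filter.Germ` for ring homomorphisms, and the comparison maps
`(Germ U k)[X] → Germ U k[X]` (`polyComp`) and `RatFunc (Germ U k) → Germ U (RatFunc k)`
(`ratComp`) for an ultrafilter `U`.
-/
import Mathlib
import Fermat.Agent.S27lib.T4.GermField

set_option autoImplicit false

noncomputable section

namespace Fermat.Agent.S27lib.U.B

open Filter Polynomial Fermat.Agent.S27lib.T4

universe u v w

section MapRingHom

variable {ι : Type w} (l : Filter ι) {R : Type u} {S : Type v} [Semiring R] [Semiring S]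

/-- `Germ l` is functorial for ring homomorphisms. -/
def germMapHom (f : R →+* S) : Germ l R →+* Germ l S where
  toFun := Germ.map f
  map_one' := by
    rw [← Germ.coe_one, Germ.map_coe]
    exact Germ.coe_eq.mpr (Eventually.of_forall fun i => map_one f)
  map_zero' := by
    rw [← Germ.coe_zero, Germ.map_coe]
    exact Germ.coe_eq.mpr (Eventually.of_forall fun i => map_zero f)
  map_mul' x y := by
    induction x using Germ.inductionOn with | _ a =>
    induction y using Germ.inductionOn with | _ b =>
    rw [← Germ.coe_mul, Germ.map_coe, Germ.map_coe, Germ.map_coe, ← Germ.coe_mul]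
    exact Germ.coe_eq.mpr (Eventually.of_forall fun i => map_mul f _ _)
  map_add' x y := by
    induction x using Germ.inductionOn with | _ a =>
    induction y using Germ.inductionOn with | _ b =>
    rw [← Germ.coe_add, Germ.map_coe, Germ.map_coe, Germ.map_coe, ← Germ.coe_add]
    exact Germ.coe_eq.mpr (Eventually.of_forall fun i => map_add f _ _)

@[simp] theorem germMapHom_coe (f : R →+* S) (a : ι → R) :
    germMapHom l f ((a : ι → R) : Germ l R) = ((fun i => f (a i) : ι → S) : Germ l S) := rfl

theorem germMapHom_injective {f : R →+* S} (hf : Function.Injective f) :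
    Function.Injective (germMapHom l f) := by
  intro x y
  induction x using Germ.inductionOn with | _ a =>
  induction y using Germ.inductionOn with | _ b =>
  intro h
  rw [germMapHom_coe, germMapHom_coe] at h
  exact Germ.coe_eq.mpr ((Germ.coe_eq.mp h).mono fun i hi => hf hi)

end MapRingHom

section PolyComp

variable {ι : Type w} (U : Ultrafilter ι) (k : Type u) [Field k]

/-- the comparison map `(Germ U k)[X] → Germ U k[X]` -/
def polyComp : (Germ (U : Filter ι) k)[X] →+* Germ (U : Filter ι) k[X] :=
  eval₂RingHom (germMapHom (U : Filter ι) (C : k →+* k[X])) ((fun _ => X : ι → k[X]) : Germ _ k[X])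

@[simp] theorem polyComp_C (c : Germ (U : Filter ι) k) :
    polyComp U k (C c) = germMapHom (U : Filter ι) (C : k →+* k[X]) c := by
  simp [polyComp]

@[simp] theorem polyComp_X :
    polyComp U k X = ((fun _ => X : ι → k[X]) : Germ (U : Filter ι) k[X]) := by
  simp [polyComp]

/-- `polyComp` on a polynomial given by a family of coefficient functions -/
theorem polyComp_map_coe (P : (ι → k)[X]) :
    polyComp U k (P.map (Germ.coeRingHom (U : Filter ι))) =
      ((fun i => polyAt k P i : ι → k[X]) : Germ (U : Filter ι) k[X]) := by
  have key : (polyComp U k).comp (Polynomial.mapRingHom (Germ.coeRingHom (R := k) (U : Filter ι))) =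
      (Germ.coeRingHom (U : Filter ι)).comp
        (RingHom.pi fun i => Polynomial.mapRingHom (Pi.evalRingHom (fun _ : ι => k) i)) := by
    refine Polynomial.ringHom_ext (fun a => ?_) ?_
    · simp only [RingHom.comp_apply, coe_mapRingHom, map_C, polyComp_C]
      refine Germ.coe_eq.mpr (Eventually.of_forall fun i => ?_)
      simp
    · simp only [RingHom.comp_apply, coe_mapRingHom, map_X, polyComp_X]
      refine Germ.coe_eq.mpr (Eventually.of_forall fun i => ?_)
      simp
  exact congrArg (fun φ : (ι → k)[X] →+* Germ (U : Filter ι) k[X] => φ P) key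

theorem polyComp_injective : Function.Injective (polyComp U k) := by
  rw [injective_iff_map_eq_zero]
  intro p hp
  obtain ⟨P, rfl⟩ := map_surjective (Germ.coeRingHom (R := k) (U : Filter ι))
    (coeRingHom_surjective U k) p
  rw [polyComp_map_coe] at hp
  have h0 : ∀ᶠ i in (U : Filter ι), polyAt k P i = 0 := Germ.coe_eq.mp hp
  ext n
  rw [coeff_map, coeff_zero]
  refine Germ.coe_eq.mpr ?_
  filter_upwards [h0] with i hi
  have := congrArg (fun q : k[X] => q.coeff n) hi
  simpa [coeff_polyAt] using this

end PolyComp

section RatComp

variable {ι : Type w} (U : Ultrafilter ι) (k : Type u) [Field k]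

/-- the polynomial part of `ratComp` -/
def polyToRat : (Germ (U : Filter ι) k)[X] →+* Germ (U : Filter ι) (RatFunc k) :=
  (germMapHom (U : Filter ι) (algebraMap k[X] (RatFunc k))).comp (polyComp U k)

theorem polyToRat_injective : Function.Injective (polyToRat U k) :=
  (germMapHom_injective _ (IsFractionRing.injective k[X] (RatFunc k))).comp (polyComp_injective U k)

/-- the comparison map `RatFunc (Germ U k) → Germ U (RatFunc k)` -/
def ratComp : RatFunc (Germ (U : Filter ι) k) →+* Germ (U : Filter ι) (RatFunc k) :=
  IsFractionRing.lift (polyToRat_injective U k)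

@[simp] theorem ratComp_algebraMap (p : (Germ (U : Filter ι) k)[X]) :
    ratComp U k (algebraMap _ (RatFunc (Germ (U : Filter ι) k)) p) = polyToRat U k p :=
  IsFractionRing.lift_algebraMap _ p

theorem ratComp_X :
    ratComp U k RatFunc.X = ((fun _ => RatFunc.X : ι → RatFunc k) : Germ (U : Filter ι) (RatFunc k)) := by
  rw [← RatFunc.algebraMap_X, ratComp_algebraMap, polyToRat, RingHom.comp_apply, polyComp_X,
    germMapHom_coe]
  simp

theorem ratComp_C (c : ι → k) :
    ratComp U k (RatFunc.C ((c : ι → k) : Germ (U : Filter ι) k)) =
      ((fun i => RatFunc.C (c i) : ι → RatFunc k) : Germ (U : Filter ι) (RatFunc k)) := by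
  rw [← RatFunc.algebraMap_C, ratComp_algebraMap, polyToRat, RingHom.comp_apply, polyComp_C,
    germMapHom_coe, germMapHom_coe]
  simp

end RatComp

end Fermat.Agent.S27lib.U.B
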