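/-
S27lib / U / B / Psi (helper9).

For a function field `F'` over the ultrapower `K* = Germ U K0`, presented as a finite extension of
`K*(x)`: the embedding `Ψ : F' → Germ U Ω0`, `Ω0 = AlgebraicClosure (RatFunc K0)`, extending
`x ↦ [X]` and `[c] ↦ [c]` on constants.
-/
import Mathlib
import Fermat.Agent.S27lib.T4.GermField
import Fermat.Agent.S27lib.U.B.GermMap

set_option autoImplicit false

noncomputable section

namespace Fermat.Agent.S27lib.U.B

open Filter Polynomial IntermediateField Fermat.Agent.S27lib.T4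

universe u v w

variable {ι : Type w} (U : Ultrafilter ι) (K0 : Type u) [Field K0]

/-- the ultrapower `K*` of the constant field -/
abbrev KS : Type (max u w) := Germ (U : Filter ι) K0

/-- `Ω0`, an algebraic closure of `K0(X)` -/
abbrev Om : Type u := AlgebraicClosure (RatFunc K0)

/-- the ultrapower of `Ω0` -/
abbrev GOm : Type (max u w) := Germ (U : Filter ι) (Om K0)

/-- `RatFunc K* → Germ U Ω0` -/
def rho : RatFunc (KS U K0) →+* GOm U K0 :=
  (germMapHom (U : Filter ι) (algebraMap (RatFunc K0) (Om K0))).comp (ratComp U K0)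

theorem rho_X : rho U K0 RatFunc.X =
    ((fun _ => algebraMap (RatFunc K0) (Om K0) RatFunc.X : ι → Om K0) : GOm U K0) := by
  rw [rho, RingHom.comp_apply, ratComp_X, germMapHom_coe]

theorem rho_C (c : ι → K0) : rho U K0 (RatFunc.C ((c : ι → K0) : KS U K0)) =
    ((fun i => algebraMap K0 (Om K0) (c i) : ι → Om K0) : GOm U K0) := by
  rw [rho, RingHom.comp_apply, ratComp_C, germMapHom_coe]
  refine Germ.coe_eq.mpr (Eventually.of_forall fun i => ?_)
  show algebraMap (RatFunc K0) (Om K0) (RatFunc.C (c i)) = _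
  rw [← RatFunc.algebraMap_eq_C, ← IsScalarTower.algebraMap_apply]

variable {F' : Type v} [Field F'] [Algebra (KS U K0) F'] (x : F')
  (hx : Transcendental (KS U K0) x)

/-- `K*(x) → Germ U Ω0` -/
def rhoAdjoin : (KS U K0)⟮x⟯ →+* GOm U K0 :=
  (rho U K0).comp ((RatFunc.algEquivOfTranscendental x hx).symm : (KS U K0)⟮x⟯ →+* RatFunc (KS U K0))

/-- `Germ U Ω0` as an algebra over `K*(x)` -/
@[reducible] def algAdjoin : Algebra (KS U K0)⟮x⟯ (GOm U K0) := (rhoAdjoin U K0 x hx).toAlgebra

/-- an algebra over a field which is a field is torsion free -/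
theorem isTorsionFree_of_fields (R M : Type*) [Field R] [Field M] [Algebra R M] :
    Module.IsTorsionFree R M where
  isSMulRegular r hr := by
    intro a b h
    have hr0 : r ≠ 0 := hr.ne_zero
    simp only [Algebra.smul_def] at h
    exact mul_left_cancel₀ ((_root_.map_ne_zero _).mpr hr0) h

variable [FiniteDimensional (KS U K0)⟮x⟯ F']

/-- the `K*(x)`-algebra embedding underlying `Ψ` -/
def PsiAlg : letI := algAdjoin U K0 x hx; F' →ₐ[(KS U K0)⟮x⟯] GOm U K0 :=
  letI := algAdjoin U K0 x hx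
  haveI := isTorsionFree_of_fields (KS U K0)⟮x⟯ (GOm U K0)
  haveI := isTorsionFree_of_fields (KS U K0)⟮x⟯ F'
  IsAlgClosed.lift (R := (KS U K0)⟮x⟯) (S := F') (M := GOm U K0)

/-- **the embedding `Ψ : F' → Germ U Ω0`** -/
def Psi : F' →+* GOm U K0 :=
  letI := algAdjoin U K0 x hx
  (PsiAlg U K0 x hx).toRingHom

theorem Psi_algebraMap (r : (KS U K0)⟮x⟯) :
    Psi U K0 x hx (algebraMap (KS U K0)⟮x⟯ F' r) = rhoAdjoin U K0 x hx r := by
  let _ := algAdjoin U K0 x hx
  exact (PsiAlg U K0 x hx).commutes r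

theorem Psi_x : Psi U K0 x hx x =
    ((fun _ => algebraMap (RatFunc K0) (Om K0) RatFunc.X : ι → Om K0) : GOm U K0) := by
  have h1 := Psi_algebraMap U K0 x hx (AdjoinSimple.gen (KS U K0) x)
  rw [AdjoinSimple.algebraMap_gen] at h1
  rw [h1, rhoAdjoin, RingHom.comp_apply]
  have h2 : ((RatFunc.algEquivOfTranscendental x hx).symm : (KS U K0)⟮x⟯ →+* RatFunc (KS U K0))
      (AdjoinSimple.gen (KS U K0) x) = RatFunc.X :=
    RatFunc.algEquivOfTranscendental_symm_gen x hx
  rw [h2, rho_X]

theorem Psi_const (c : ι → K0) :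
    Psi U K0 x hx (algebraMap (KS U K0) F' ((c : ι → K0) : KS U K0)) =
      ((fun i => algebraMap K0 (Om K0) (c i) : ι → Om K0) : GOm U K0) := by
  rw [IsScalarTower.algebraMap_apply (KS U K0) (KS U K0)⟮x⟯ F', Psi_algebraMap, rhoAdjoin,
    RingHom.comp_apply]
  have h2 : ((RatFunc.algEquivOfTranscendental x hx).symm : (KS U K0)⟮x⟯ →+* RatFunc (KS U K0))
      (algebraMap (KS U K0) (KS U K0)⟮x⟯ ((c : ι → K0) : KS U K0)) =
        RatFunc.C ((c : ι → K0) : KS U K0) := by
    have := (RatFunc.algEquivOfTranscendental x hx).symm.commutes ((c : ι → K0) : KS U K0)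
    rw [RatFunc.algebraMap_eq_C] at this
    exact this
  rw [h2, rho_C]

theorem Psi_injective : Function.Injective (Psi U K0 x hx) := (Psi U K0 x hx).injective

end Fermat.Agent.S27lib.U.B
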