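/-
S27lib / U / B / Comp (helper9).

The component fields `Fc i = K0(X)(y_i) ⊆ Ω0` of a function field `F' = K*(x)(y)` over the
ultrapower `K* = Germ U K0`, the component maps `comp : F' → ∀ i, Fc i` and their almost
everywhere homomorphism laws.
-/
import Mathlib
import Fermat.Agent.S27lib.U.B.Psi

set_option autoImplicit false

noncomputable section

namespace Fermat.Agent.S27lib.U.B

open Filter Polynomial IntermediateField Fermat.Agent.S27lib.T4

universe u v w

variable {ι : Type w} (U : Ultrafilter ι) (K0 : Type u) [Field K0]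
variable {F' : Type v} [Field F'] [Algebra (KS U K0) F'] (x : F')
  (hx : Transcendental (KS U K0) x) [FiniteDimensional (KS U K0)⟮x⟯ F']

/-- a representative of `Ψ h` -/
def rep (h : F') : ι → Om K0 := Quotient.out (Psi U K0 x hx h)

theorem coe_rep (h : F') : ((rep U K0 x hx h : ι → Om K0) : GOm U K0) = Psi U K0 x hx h :=
  Quotient.out_eq _

theorem rep_eventuallyEq {h : F'} {r : ι → Om K0} (hr : ((r : ι → Om K0) : GOm U K0) = Psi U K0 x hx h) :
    rep U K0 x hx h =ᶠ[(U : Filter ι)] r :=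
  Germ.coe_eq.mp ((coe_rep U K0 x hx h).trans hr.symm)

theorem rep_add (a b : F') :
    rep U K0 x hx (a + b) =ᶠ[(U : Filter ι)] rep U K0 x hx a + rep U K0 x hx b := by
  apply rep_eventuallyEq
  rw [Germ.coe_add, coe_rep, coe_rep, map_add]

theorem rep_mul (a b : F') :
    rep U K0 x hx (a * b) =ᶠ[(U : Filter ι)] rep U K0 x hx a * rep U K0 x hx b := by
  apply rep_eventuallyEq
  rw [Germ.coe_mul, coe_rep, coe_rep, map_mul]

theorem rep_inv (a : F') :
    rep U K0 x hx a⁻¹ =ᶠ[(U : Filter ι)] (rep U K0 x hx a)⁻¹ := by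
  apply rep_eventuallyEq
  rw [Germ.coe_inv, coe_rep, map_inv₀]

theorem rep_one : rep U K0 x hx 1 =ᶠ[(U : Filter ι)] 1 := by
  apply rep_eventuallyEq
  rw [Germ.coe_one, map_one]

theorem rep_zero : rep U K0 x hx 0 =ᶠ[(U : Filter ι)] 0 := by
  apply rep_eventuallyEq
  rw [Germ.coe_zero, map_zero]

theorem rep_x : rep U K0 x hx x =ᶠ[(U : Filter ι)]
    fun _ => algebraMap (RatFunc K0) (Om K0) RatFunc.X := by
  apply rep_eventuallyEq
  rw [Psi_x]

theorem rep_const (c : ι → K0) : rep U K0 x hx (algebraMap (KS U K0) F' ((c : ι → K0) : KS U K0))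
    =ᶠ[(U : Filter ι)] fun i => algebraMap K0 (Om K0) (c i) := by
  apply rep_eventuallyEq
  rw [Psi_const]

/-- the image of `K*(x)` consists of germs of elements of `K0(X)` -/
theorem exists_rep_algebraMap (r : (KS U K0)⟮x⟯) : ∃ g : ι → RatFunc K0,
    rep U K0 x hx (algebraMap (KS U K0)⟮x⟯ F' r) =ᶠ[(U : Filter ι)]
      fun i => algebraMap (RatFunc K0) (Om K0) (g i) := by
  obtain ⟨g, hg⟩ : ∃ g : ι → RatFunc K0, ((g : ι → RatFunc K0) : Germ (U : Filter ι) (RatFunc K0)) =
      ratComp U K0 (((RatFunc.algEquivOfTranscendental x hx).symm :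
        (KS U K0)⟮x⟯ →+* RatFunc (KS U K0)) r) := by
    induction (ratComp U K0 (((RatFunc.algEquivOfTranscendental x hx).symm :
        (KS U K0)⟮x⟯ →+* RatFunc (KS U K0)) r)) using Germ.inductionOn with
    | _ g => exact ⟨g, rfl⟩
  refine ⟨g, ?_⟩
  apply rep_eventuallyEq
  rw [Psi_algebraMap, rhoAdjoin, RingHom.comp_apply, rho, RingHom.comp_apply, ← hg, germMapHom_coe]

variable (y : F')

/-- the component fields `Fc i = K0(X)(y_i)` -/
def Fc (i : ι) : IntermediateField (RatFunc K0) (Om K0) := (RatFunc K0)⟮rep U K0 x hx y i⟯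

theorem rep_y_mem (i : ι) : rep U K0 x hx y i ∈ Fc U K0 x hx y i :=
  mem_adjoin_simple_self _ _

variable (hy : (KS U K0)⟮x⟯⟮y⟯ = ⊤)

include hy in
/-- **every element of `F'` has almost all its components in the component fields** -/
theorem rep_mem (h : F') : ∀ᶠ i in (U : Filter ι), rep U K0 x hx h i ∈ Fc U K0 x hx y i := by
  have hmem : h ∈ (KS U K0)⟮x⟯⟮y⟯ := hy ▸ mem_top
  induction hmem using adjoin_induction with
  | mem a ha =>
    rw [Set.mem_singleton_iff] at ha
    subst ha
    exact Eventually.of_forall fun i => rep_y_mem U K0 x hx a i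
  | algebraMap r =>
    obtain ⟨g, hg⟩ := exists_rep_algebraMap U K0 x hx r
    filter_upwards [hg] with i hi
    rw [hi]
    exact (Fc U K0 x hx y i).algebraMap_mem (g i)
  | add a b _ _ ha hb =>
    filter_upwards [ha, hb, rep_add U K0 x hx a b] with i hai hbi hi
    rw [hi]
    exact add_mem hai hbi
  | inv a _ ha =>
    filter_upwards [ha, rep_inv U K0 x hx a] with i hai hi
    rw [hi]
    exact inv_mem hai
  | mul a b _ _ ha hb =>
    filter_upwards [ha, hb, rep_mul U K0 x hx a b] with i hai hbi hi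
    rw [hi]
    exact mul_mem hai hbi

open Classical in
/-- **the component maps** -/
def comp (h : F') (i : ι) : Fc U K0 x hx y i :=
  if hm : rep U K0 x hx h i ∈ Fc U K0 x hx y i then ⟨rep U K0 x hx h i, hm⟩ else 0

theorem comp_of_mem {h : F'} {i : ι} (hm : rep U K0 x hx h i ∈ Fc U K0 x hx y i) :
    comp U K0 x hx y h i = ⟨rep U K0 x hx h i, hm⟩ := dif_pos hm

include hy in
theorem coe_comp (h : F') :
    ∀ᶠ i in (U : Filter ι), ((comp U K0 x hx y h i : Fc U K0 x hx y i) : Om K0) = rep U K0 x hx h i := by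
  filter_upwards [rep_mem U K0 x hx y hy h] with i hi
  rw [comp_of_mem U K0 x hx y hi]

include hy in
theorem comp_add (a b : F') : ∀ᶠ i in (U : Filter ι),
    comp U K0 x hx y (a + b) i = comp U K0 x hx y a i + comp U K0 x hx y b i := by
  filter_upwards [coe_comp U K0 x hx y hy a, coe_comp U K0 x hx y hy b,
    coe_comp U K0 x hx y hy (a + b), rep_add U K0 x hx a b] with i ha hb hab hi
  apply Subtype.ext
  rw [hab, hi]
  show _ = ((comp U K0 x hx y a i : Fc U K0 x hx y i) : Om K0) + (comp U K0 x hx y b i : Om K0)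
  rw [ha, hb]
  rfl

include hy in
theorem comp_mul (a b : F') : ∀ᶠ i in (U : Filter ι),
    comp U K0 x hx y (a * b) i = comp U K0 x hx y a i * comp U K0 x hx y b i := by
  filter_upwards [coe_comp U K0 x hx y hy a, coe_comp U K0 x hx y hy b,
    coe_comp U K0 x hx y hy (a * b), rep_mul U K0 x hx a b] with i ha hb hab hi
  apply Subtype.ext
  rw [hab, hi]
  show _ = ((comp U K0 x hx y a i : Fc U K0 x hx y i) : Om K0) * (comp U K0 x hx y b i : Om K0)
  rw [ha, hb]
  rfl

include hy in
theorem comp_one : ∀ᶠ i in (U : Filter ι), comp U K0 x hx y 1 i = 1 := by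
  filter_upwards [coe_comp U K0 x hx y hy 1, rep_one U K0 x hx] with i h1 hi
  apply Subtype.ext
  rw [h1, hi]
  rfl

include hy in
theorem comp_zero : ∀ᶠ i in (U : Filter ι), comp U K0 x hx y 0 i = 0 := by
  filter_upwards [coe_comp U K0 x hx y hy 0, rep_zero U K0 x hx] with i h1 hi
  apply Subtype.ext
  rw [h1, hi]
  rfl

include hy in
theorem comp_inv (a : F') : ∀ᶠ i in (U : Filter ι),
    comp U K0 x hx y a⁻¹ i = (comp U K0 x hx y a i)⁻¹ := by
  filter_upwards [coe_comp U K0 x hx y hy a, coe_comp U K0 x hx y hy a⁻¹,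
    rep_inv U K0 x hx a] with i ha hai hi
  apply Subtype.ext
  rw [hai, hi]
  show _ = ((comp U K0 x hx y a i : Fc U K0 x hx y i) : Om K0)⁻¹
  rw [ha]
  rfl

/-- the coordinate function of the `i`-th component -/
def xc (i : ι) : Fc U K0 x hx y i := algebraMap (RatFunc K0) (Fc U K0 x hx y i) RatFunc.X

include hy in
theorem comp_x : ∀ᶠ i in (U : Filter ι), comp U K0 x hx y x i = xc U K0 x hx y i := by
  filter_upwards [coe_comp U K0 x hx y hy x, rep_x U K0 x hx] with i h1 hi
  apply Subtype.ext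
  rw [h1, hi]
  rfl

include hy in
theorem comp_const (c : ι → K0) : ∀ᶠ i in (U : Filter ι),
    comp U K0 x hx y (algebraMap (KS U K0) F' ((c : ι → K0) : KS U K0)) i =
      algebraMap K0 (Fc U K0 x hx y i) (c i) := by
  filter_upwards [coe_comp U K0 x hx y hy _, rep_const U K0 x hx c] with i h1 hi
  apply Subtype.ext
  rw [h1, hi]
  rfl

include hy in
/-- a nonzero element has almost all its components nonzero -/
theorem comp_ne_zero {h : F'} (h0 : h ≠ 0) : ∀ᶠ i in (U : Filter ι), comp U K0 x hx y h i ≠ 0 := by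
  filter_upwards [comp_mul U K0 x hx y hy h h⁻¹, comp_one U K0 x hx y hy] with i hm h1
  rw [mul_inv_cancel₀ h0, h1] at hm
  intro hz
  rw [hz, zero_mul] at hm
  exact one_ne_zero hm

end Fermat.Agent.S27lib.U.B
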