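/-
S27lib / U / B / Degree (helper9).

Field theory of the component fields `Fc i = K0(X)(y_i)`: `xc i` is transcendental over `K0`,
`Fc i` is finite over `K0(xc i)`, and `[Fc i : K0(xc i)] ≤ [F' : K*(x)]` for almost all `i`.
-/
import Mathlib
import Fermat.Agent.S27lib.U.B.Comp

set_option autoImplicit false
set_option linter.unusedSectionVars false
set_option linter.style.haveILetI false

noncomputable section

namespace Fermat.Agent.S27lib.U.B

open Filter Polynomial IntermediateField Fermat.Agent.S27lib.T4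

universe u v w

section PiMap

variable {ι : Type w} (l : Filter ι) {R : Type u} {S : Type v} [Semiring R] [Semiring S]

/-- post-composition with a ring homomorphism, on functions -/
def piMap (f : R →+* S) : (ι → R) →+* (ι → S) :=
  RingHom.pi fun i => f.comp (Pi.evalRingHom (fun _ : ι => R) i)

@[simp] theorem piMap_apply (f : R →+* S) (a : ι → R) (i : ι) : piMap f a i = f (a i) := rfl

theorem germMapHom_comp_coeRingHom (f : R →+* S) :
    (germMapHom l f).comp (Germ.coeRingHom l) = (Germ.coeRingHom l).comp (piMap f) := rfl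

end PiMap

section PolyAtMap

variable {ι : Type w} {R : Type u} {S : Type v} [Field R] [Field S]

theorem polyAt_map (f : R →+* S) (P : (ι → R)[X]) (i : ι) :
    polyAt S (P.map (piMap f)) i = (polyAt R P i).map f := by
  rw [polyAt, polyAt, Polynomial.map_map, Polynomial.map_map]
  rfl

theorem monic_polyAt {P : (ι → R)[X]} (hP : P.Monic) (i : ι) : (polyAt R P i).Monic :=
  hP.map _

theorem natDegree_polyAt {P : (ι → R)[X]} (hP : P.Monic) (i : ι) :
    (polyAt R P i).natDegree = P.natDegree :=
  hP.natDegree_map _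

end PolyAtMap

variable {ι : Type w} (U : Ultrafilter ι) (K0 : Type u) [Field K0]
variable {F' : Type v} [Field F'] [Algebra (KS U K0) F'] (x : F')
  (hx : Transcendental (KS U K0) x) [FiniteDimensional (KS U K0)⟮x⟯ F'] (y : F')

/-- `xc i` is transcendental over `K0` -/
theorem transcendental_xc (i : ι) : Transcendental K0 (xc U K0 x hx y i) := by
  have h1 : Transcendental K0 (RatFunc.X : RatFunc K0) := RatFunc.transcendental_X
  exact (transcendental_algebraMap_iff (FaithfulSMul.algebraMap_injective (RatFunc K0)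
    (Fc U K0 x hx y i))).mpr h1

/-- `y_i` is algebraic over `K0(X)` -/
theorem isIntegral_rep_y (i : ι) : IsIntegral (RatFunc K0) (rep U K0 x hx y i) :=
  Algebra.IsIntegral.isIntegral _

instance finiteDimensional_Fc (i : ι) : FiniteDimensional (RatFunc K0) (Fc U K0 x hx y i) :=
  adjoin.finiteDimensional (isIntegral_rep_y U K0 x hx y i)

/-- the comparison `K0(X) ≃ K0(xc i)` is compatible with the algebra maps to `Fc i` -/
theorem algebraMap_comp_algEquiv_xc (i : ι) :
    (algebraMap K0⟮xc U K0 x hx y i⟯ (Fc U K0 x hx y i)).comp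
      ((RatFunc.algEquivOfTranscendental (xc U K0 x hx y i) (transcendental_xc U K0 x hx y i) :
        RatFunc K0 ≃+* K0⟮xc U K0 x hx y i⟯) : RatFunc K0 →+* K0⟮xc U K0 x hx y i⟯) =
      algebraMap (RatFunc K0) (Fc U K0 x hx y i) := by
  apply IsLocalization.ringHom_ext (nonZeroDivisors K0[X])
  refine RingHom.ext fun p => ?_
  simp only [RingHom.coe_comp, Function.comp_apply, RingHom.coe_coe]
  have h2 : (RatFunc.algEquivOfTranscendental (xc U K0 x hx y i) (transcendental_xc U K0 x hx y i) :
      RatFunc K0 ≃+* K0⟮xc U K0 x hx y i⟯) (algebraMap K0[X] (RatFunc K0) p) =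
        Polynomial.aeval (AdjoinSimple.gen K0 (xc U K0 x hx y i)) p :=
    RatFunc.algEquivOfTranscendental_algebraMap _ _ p
  rw [h2, ← Polynomial.aeval_algebraMap_apply, AdjoinSimple.algebraMap_gen]
  -- both sides are `aeval (xc i) p`
  have h3 : algebraMap (RatFunc K0) (Fc U K0 x hx y i) (algebraMap K0[X] (RatFunc K0) p) =
      Polynomial.aeval (xc U K0 x hx y i) p := by
    have := Polynomial.aeval_algebraMap_apply (A := RatFunc K0) (Fc U K0 x hx y i)
      (RatFunc.X : RatFunc K0) p
    rw [show Polynomial.aeval (RatFunc.X : RatFunc K0) p = algebraMap K0[X] (RatFunc K0) p from by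
      rw [← RatFunc.algebraMap_X, Polynomial.aeval_algebraMap_apply, Polynomial.aeval_X_left_apply]]
      at this
    exact this.symm
  exact h3.symm

instance finiteDimensional_Fc_adjoin (i : ι) :
    FiniteDimensional K0⟮xc U K0 x hx y i⟯ (Fc U K0 x hx y i) :=
  Module.Finite.of_equiv_equiv (A₁ := RatFunc K0) (B₁ := Fc U K0 x hx y i)
    (RatFunc.algEquivOfTranscendental (xc U K0 x hx y i) (transcendental_xc U K0 x hx y i) :
      RatFunc K0 ≃+* K0⟮xc U K0 x hx y i⟯) (RingEquiv.refl _) (by
      rw [← algebraMap_comp_algEquiv_xc U K0 x hx y i]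
      ext r
      simp)

theorem finrank_Fc_adjoin (i : ι) :
    Module.finrank K0⟮xc U K0 x hx y i⟯ (Fc U K0 x hx y i) =
      Module.finrank (RatFunc K0) (Fc U K0 x hx y i) :=
  (Algebra.finrank_eq_of_equiv_equiv
    (RatFunc.algEquivOfTranscendental (xc U K0 x hx y i) (transcendental_xc U K0 x hx y i) :
      RatFunc K0 ≃+* K0⟮xc U K0 x hx y i⟯) (RingEquiv.refl _) (by
      rw [← algebraMap_comp_algEquiv_xc U K0 x hx y i]
      ext r
      simp)).symm

/-! ### the degree bound -/

variable (hy : (KS U K0)⟮x⟯⟮y⟯ = ⊤)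

/-- the ring homomorphism `K*(x) → Germ U (K0(X))` -/
def sigmaAdjoin : (KS U K0)⟮x⟯ →+* Germ (U : Filter ι) (RatFunc K0) :=
  (ratComp U K0).comp
    ((RatFunc.algEquivOfTranscendental x hx).symm : (KS U K0)⟮x⟯ →+* RatFunc (KS U K0))

theorem rhoAdjoin_eq : rhoAdjoin U K0 x hx =
    (germMapHom (U : Filter ι) (algebraMap (RatFunc K0) (Om K0))).comp (sigmaAdjoin U K0 x hx) := rfl

/-- `Ψ y` is a root of the image of the minimal polynomial of `y` -/
theorem eval_Psi_minpoly :
    ((minpoly (KS U K0)⟮x⟯ y).map (rhoAdjoin U K0 x hx)).eval (Psi U K0 x hx y) = 0 := by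
  letI := algAdjoin U K0 x hx
  have h1 : Polynomial.aeval y (minpoly (KS U K0)⟮x⟯ y) = 0 := minpoly.aeval _ _
  have h2 := congrArg (PsiAlg U K0 x hx) h1
  rw [← Polynomial.aeval_algHom_apply, map_zero] at h2
  rw [Polynomial.eval_map]
  exact h2

include hy in
theorem natDegree_minpoly_y :
    (minpoly (KS U K0)⟮x⟯ y).natDegree = Module.finrank (KS U K0)⟮x⟯ F' := by
  have hint : IsIntegral (KS U K0)⟮x⟯ y := Algebra.IsIntegral.isIntegral y
  rw [← adjoin.finrank hint, hy]
  exact IntermediateField.finrank_top'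

include hy in
/-- **the degree bound**: `[Fc i : K0(xc i)] ≤ [F' : K*(x)]` for almost all `i` -/
theorem finrank_Fc_le : ∀ᶠ i in (U : Filter ι),
    Module.finrank K0⟮xc U K0 x hx y i⟯ (Fc U K0 x hx y i) ≤ Module.finrank (KS U K0)⟮x⟯ F' := by
  classical
  set f := minpoly (KS U K0)⟮x⟯ y with hf
  have hint : IsIntegral (KS U K0)⟮x⟯ y := Algebra.IsIntegral.isIntegral y
  have hmon : f.Monic := minpoly.monic hint
  -- lift the image of `f` in `Germ U K0(X)` to a monic family
  set f₁ := f.map (sigmaAdjoin U K0 x hx) with hf₁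
  have hmon₁ : f₁.Monic := hmon.map _
  have hlift : f₁ ∈ Polynomial.lifts (Germ.coeRingHom (R := RatFunc K0) (U : Filter ι)) := by
    rw [Polynomial.lifts_iff_coeff_lifts]
    intro n
    obtain ⟨a, ha⟩ := coeRingHom_surjective U (RatFunc K0) (f₁.coeff n)
    exact ⟨a, ha⟩
  obtain ⟨P, hP, hPdeg, hPmon⟩ := Polynomial.lifts_and_natDegree_eq_and_monic hlift hmon₁
  have hdeg : P.natDegree = Module.finrank (KS U K0)⟮x⟯ F' := by
    rw [hPdeg, hf₁, hmon.natDegree_map, natDegree_minpoly_y U K0 x y hy]
  -- the root property, componentwise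
  have hroot : ((P.map (piMap (algebraMap (RatFunc K0) (Om K0)))).map
      (Germ.coeRingHom (U : Filter ι))).eval
        ((rep U K0 x hx y : ι → Om K0) : GOm U K0) = 0 := by
    rw [Polynomial.map_map, ← germMapHom_comp_coeRingHom, ← Polynomial.map_map, hP, hf₁,
      Polynomial.map_map, ← rhoAdjoin_eq, coe_rep]
    exact eval_Psi_minpoly U K0 x hx y
  rw [eval_map_coeRingHom] at hroot
  have hroot' := Germ.coe_eq.mp hroot
  filter_upwards [hroot'] with i hi
  rw [← eval_polyAt, polyAt_map] at hi
  rw [finrank_Fc_adjoin, Fc, adjoin.finrank (isIntegral_rep_y U K0 x hx y i), ← hdeg,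
    ← natDegree_polyAt hPmon i]
  apply natDegree_le_natDegree
  apply minpoly.min _ _ (monic_polyAt hPmon i)
  rw [Polynomial.aeval_def, ← Polynomial.eval_map]
  exact hi

end Fermat.Agent.S27lib.U.B
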