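/-
S27lib / U / B / Relation (helper9).

Algebraic dependence in a function field of one variable: if `F` is finite over `K(x)` and `h ∈ F`,
there is a nonzero `p ∈ K[T][X]` with `p(h, x) = 0`; if `h` is transcendental, `p(h, X) ≠ 0`.
-/
import Mathlib
import Fermat.Agent.S18lib.RRgen.Canonical

set_option autoImplicit false
set_option linter.unusedSectionVars false
set_option linter.style.haveILetI false

noncomputable section

namespace Fermat.Agent.S27lib.U.B

open Polynomial IntermediateField Fermat.Agent.S18lib.RRgen.Canonical

section Ev2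

variable {K : Type*} [Field K] {A : Type*} [CommRing A] [Algebra K A]

/-- evaluation of a bivariate polynomial: the inner variable at `a`, the outer variable at `b` -/
def ev2 (a b : A) (p : K[X][X]) : A := eval₂ ((aeval a : K[X] →ₐ[K] A) : K[X] →+* A) b p

theorem ev2_monomial_monomial (a b : A) (n m : ℕ) (r : K) :
    ev2 a b (monomial n (monomial m r)) = algebraMap K A r * a ^ m * b ^ n := by
  rw [ev2, eval₂_monomial]
  simp [aeval_monomial]

theorem ev2_add (a b : A) (p q : K[X][X]) : ev2 a b (p + q) = ev2 a b p + ev2 a b q :=
  eval₂_add _ _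

theorem ev2_swap (a b : A) (p : K[X][X]) : ev2 b a (Bivariate.swap p) = ev2 a b p := by
  induction p using Polynomial.induction_on' with
  | add p q hp hq => rw [map_add, ev2_add, ev2_add, hp, hq]
  | monomial n c =>
    induction c using Polynomial.induction_on' with
    | add c d hc hd =>
      rw [(monomial n).map_add, map_add, ev2_add, ev2_add, hc, hd]
    | monomial m r =>
      rw [Bivariate.swap_monomial_monomial, ev2_monomial_monomial, ev2_monomial_monomial]
      ring

/-- `ev2 a b p` as the value at `b` of the specialised polynomial `p(a, X)` -/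
theorem ev2_eq_eval_map (a b : A) (p : K[X][X]) :
    ev2 a b p = (p.map ((aeval a : K[X] →ₐ[K] A) : K[X] →+* A)).eval b := by
  rw [ev2, eval_map]

end Ev2

variable (K : Type*) [Field K] {F : Type*} [Field F] [Algebra K F] {x : F}
  (hx : Transcendental K x) [FiniteDimensional K⟮x⟯ F]

include hx in
/-- **algebraic dependence**: every `h ∈ F` satisfies a nontrivial relation `p(h, x) = 0` -/
theorem exists_relation (h : F) : ∃ p : K[X][X], p ≠ 0 ∧ ev2 h x p = 0 := by
  letI := polyAlgebra K x
  letI := ratFuncAlgebra K hx
  haveI := isScalarTower_poly_ratFunc K hx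
  haveI := finiteDimensional_ratFunc K hx
  have halg : IsAlgebraic (RatFunc K) h := Algebra.IsAlgebraic.isAlgebraic h
  have halg' : IsAlgebraic K[X] h := (IsFractionRing.isAlgebraic_iff K[X] (RatFunc K) F).mpr halg
  obtain ⟨q, hq0, hq⟩ := halg'
  refine ⟨Bivariate.swap q, ?_, ?_⟩
  · intro h0
    apply hq0
    have := congrArg Bivariate.swap h0
    rwa [Bivariate.swap_swap_apply, map_zero] at this
  · rw [ev2_swap]
    rw [aeval_def] at hq
    exact hq

include hx in
/-- if `h` is transcendental over `K`, the specialised polynomial `p(h, X)` is nonzero -/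
theorem map_aeval_ne_zero {h : F} (hh : Transcendental K h) {p : K[X][X]} (hp : p ≠ 0) :
    p.map ((aeval h : K[X] →ₐ[K] F) : K[X] →+* F) ≠ 0 := by
  have hinj : Function.Injective ((aeval h : K[X] →ₐ[K] F) : K[X] →+* F) :=
    transcendental_iff_injective.mp hh
  exact (Polynomial.map_ne_zero_iff hinj).mpr hp

end Fermat.Agent.S27lib.U.B
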