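/-
S27lib / U / B / RelComp (helper9).

Transfer of a bivariate relation `p(h, x) = 0` in `F'` to the components: for almost all `i`,
`p_i(comp h i, xc i) = 0` in `Fc i`, with `p_i ≠ 0` of bounded degree.
-/
import Mathlib
import Fermat.Agent.S27lib.U.B.Degree
import Fermat.Agent.S27lib.U.B.Relation

set_option autoImplicit false
set_option linter.unusedSectionVars false
set_option linter.style.haveILetI false

noncomputable section

namespace Fermat.Agent.S27lib.U.B

open Filter Polynomial IntermediateField Fermat.Agent.S27lib.T4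

universe u v w

section Biv

variable {ι : Type w} (K0 : Type u) [Field K0]

/-- the `i`-th component of a bivariate polynomial with coefficients in `ι → K0` -/
def bivAt (P : (ι → K0)[X][X]) (i : ι) : K0[X][X] :=
  P.map (mapRingHom (Pi.evalRingHom (fun _ : ι => K0) i))

theorem natDegree_bivAt_le (P : (ι → K0)[X][X]) (i : ι) : (bivAt K0 P i).natDegree ≤ P.natDegree :=
  natDegree_map_le

theorem coeff_coeff_bivAt (P : (ι → K0)[X][X]) (i : ι) (n m : ℕ) :
    ((bivAt K0 P i).coeff n).coeff m = ((P.coeff n).coeff m) i := by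
  rw [bivAt, coeff_map, coe_mapRingHom, coeff_map]
  rfl

variable (U : Ultrafilter ι)

/-- the lift of a bivariate polynomial over the ultrapower to a family -/
theorem exists_biv_lift (p : (KS U K0)[X][X]) :
    ∃ P : (ι → K0)[X][X], P.map (mapRingHom (Germ.coeRingHom (R := K0) (U : Filter ι))) = p :=
  map_surjective _ (map_surjective _ (coeRingHom_surjective U K0)) p

/-- a nonzero bivariate polynomial has almost all its components nonzero -/
theorem bivAt_ne_zero {P : (ι → K0)[X][X]}
    (hP : P.map (mapRingHom (Germ.coeRingHom (R := K0) (U : Filter ι))) ≠ 0) :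
    ∀ᶠ i in (U : Filter ι), bivAt K0 P i ≠ 0 := by
  by_contra hcon
  rw [← Ultrafilter.eventually_not] at hcon
  apply hP
  ext n m
  rw [coeff_map, coe_mapRingHom, coeff_map, coeff_zero, coeff_zero]
  refine Germ.coe_eq.mpr ?_
  filter_upwards [hcon] with i hi
  rw [not_not] at hi
  have := coeff_coeff_bivAt K0 P i n m
  rw [hi] at this
  simpa using this.symm

/-- **Łoś for the evaluation of bivariate polynomials** -/
theorem eval₂_biv_coe {Ω : Type u} [Field Ω] [Algebra K0 Ω]
    (φ : (KS U K0)[X] →+* Germ (U : Filter ι) Ω) (a b : ι → Ω)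
    (hφC : ∀ c : ι → K0, φ (C ((c : ι → K0) : KS U K0)) =
      ((fun i => algebraMap K0 Ω (c i) : ι → Ω) : Germ (U : Filter ι) Ω))
    (hφX : φ X = ((a : ι → Ω) : Germ (U : Filter ι) Ω)) (P : (ι → K0)[X][X]) :
    eval₂ φ ((b : ι → Ω) : Germ (U : Filter ι) Ω)
      (P.map (mapRingHom (Germ.coeRingHom (R := K0) (U : Filter ι)))) =
      ((fun i => ev2 (a i) (b i) (bivAt K0 P i) : ι → Ω) : Germ (U : Filter ι) Ω) := by
  set L : (ι → K0)[X][X] →+* Germ (U : Filter ι) Ω :=
    (eval₂RingHom φ ((b : ι → Ω) : Germ (U : Filter ι) Ω)).comp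
      (mapRingHom (mapRingHom (Germ.coeRingHom (R := K0) (U : Filter ι)))) with hL
  set R : (ι → K0)[X][X] →+* Germ (U : Filter ι) Ω :=
    (Germ.coeRingHom (U : Filter ι)).comp
      (RingHom.pi fun i => (eval₂RingHom ((aeval (a i) : K0[X] →ₐ[K0] Ω) : K0[X] →+* Ω) (b i)).comp
        (mapRingHom (mapRingHom (Pi.evalRingHom (fun _ : ι => K0) i)))) with hR
  have key : L = R := by
    refine Polynomial.ringHom_ext' (Polynomial.ringHom_ext' ?_ ?_) ?_
    · -- constants
      refine RingHom.ext fun c => ?_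
      simp only [hL, hR, RingHom.comp_apply, coe_mapRingHom, map_C, coe_eval₂RingHom, eval₂_C]
      rw [show (Germ.coeRingHom (U : Filter ι)) c = ((c : ι → K0) : KS U K0) from rfl, hφC]
      refine Germ.coe_eq.mpr (Eventually.of_forall fun i => ?_)
      simp [RingHom.pi]
    · -- the inner variable
      simp only [hL, hR, RingHom.comp_apply, coe_mapRingHom, map_C, map_X, coe_eval₂RingHom,
        eval₂_C]
      rw [hφX]
      refine Germ.coe_eq.mpr (Eventually.of_forall fun i => ?_)
      simp [RingHom.pi]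
    · -- the outer variable
      simp only [hL, hR, RingHom.comp_apply, coe_mapRingHom, map_X, coe_eval₂RingHom, eval₂_X]
      refine Germ.coe_eq.mpr (Eventually.of_forall fun i => ?_)
      simp [RingHom.pi]
  have := congrArg (fun f : (ι → K0)[X][X] →+* Germ (U : Filter ι) Ω => f P) key
  simp only [hL, hR, RingHom.comp_apply, coe_mapRingHom, coe_eval₂RingHom] at this
  rw [this]
  refine Germ.coe_eq.mpr (Eventually.of_forall fun i => ?_)
  simp [RingHom.pi, ev2, bivAt]

end Biv

variable {ι : Type w} (U : Ultrafilter ι) (K0 : Type u) [Field K0]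
variable {F' : Type v} [Field F'] [Algebra (KS U K0) F'] (x : F')
  (hx : Transcendental (KS U K0) x) [FiniteDimensional (KS U K0)⟮x⟯ F'] (y : F')
  (hy : (KS U K0)⟮x⟯⟮y⟯ = ⊤)

/-- the inclusion `Fc i → Ω0` commutes with `ev2` -/
theorem coe_ev2 (i : ι) (a b : Fc U K0 x hx y i) (q : K0[X][X]) :
    ((ev2 a b q : Fc U K0 x hx y i) : Om K0) = ev2 (a : Om K0) (b : Om K0) q := by
  have h1 := Polynomial.hom_eval₂ q ((aeval a : K0[X] →ₐ[K0] Fc U K0 x hx y i) : K0[X] →+* _)
    (algebraMap (Fc U K0 x hx y i) (Om K0)) b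
  have h2 : (algebraMap (Fc U K0 x hx y i) (Om K0)).comp
      ((aeval a : K0[X] →ₐ[K0] Fc U K0 x hx y i) : K0[X] →+* _) =
      ((aeval (a : Om K0) : K0[X] →ₐ[K0] Om K0) : K0[X] →+* _) := by
    refine Polynomial.ringHom_ext (fun c => ?_) ?_
    · simp only [RingHom.comp_apply, RingHom.coe_coe, aeval_C]
      rfl
    · simp only [RingHom.comp_apply, RingHom.coe_coe, aeval_X]
      rfl
  rw [h2] at h1
  exact h1

include hy in
/-- **the relation between `h` and `x` passes to almost all components** -/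
theorem exists_comp_relation (h : F') : ∃ P : (ι → K0)[X][X],
    P.map (mapRingHom (Germ.coeRingHom (R := K0) (U : Filter ι))) ≠ 0 ∧
    ∀ᶠ i in (U : Filter ι),
      ev2 (comp U K0 x hx y h i) (xc U K0 x hx y i) (bivAt K0 P i) = 0 := by
  obtain ⟨p, hp0, hp⟩ := exists_relation (KS U K0) hx h
  obtain ⟨P, rfl⟩ := exists_biv_lift K0 U p
  refine ⟨P, hp0, ?_⟩
  -- apply `Ψ`
  have h1 := congrArg (Psi U K0 x hx) hp
  rw [map_zero, ev2, Polynomial.hom_eval₂] at h1
  set φ : (KS U K0)[X] →+* GOm U K0 :=
    (Psi U K0 x hx).comp ((aeval h : (KS U K0)[X] →ₐ[KS U K0] F') : (KS U K0)[X] →+* F') with hφ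
  have hφC : ∀ c : ι → K0, φ (C ((c : ι → K0) : KS U K0)) =
      ((fun i => algebraMap K0 (Om K0) (c i) : ι → Om K0) : GOm U K0) := by
    intro c
    rw [hφ, RingHom.comp_apply]
    have : ((aeval h : (KS U K0)[X] →ₐ[KS U K0] F') : (KS U K0)[X] →+* F')
        (C ((c : ι → K0) : KS U K0)) = algebraMap (KS U K0) F' ((c : ι → K0) : KS U K0) := by
      simp
    rw [this, Psi_const]
  have hφX : φ X = ((rep U K0 x hx h : ι → Om K0) : GOm U K0) := by
    rw [hφ, RingHom.comp_apply, coe_rep]
    simp
  rw [← coe_rep U K0 x hx x, eval₂_biv_coe K0 U φ (rep U K0 x hx h) (rep U K0 x hx x) hφC hφX P]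
    at h1
  have h2 := Germ.coe_eq.mp h1
  filter_upwards [h2, coe_comp U K0 x hx y hy h, coe_comp U K0 x hx y hy x,
    comp_x U K0 x hx y hy] with i hi hch hcx hxc
  apply Subtype.ext
  rw [coe_ev2, ← hxc, hch, hcx]
  exact hi

variable [IsAlgClosed K0]

include hy in
/-- **a non-constant element has almost all its components non-constant** -/
theorem transcendental_comp {h : F'} (hh : Transcendental (KS U K0) h) :
    ∀ᶠ i in (U : Filter ι), Transcendental K0 (comp U K0 x hx y h i) := by
  by_contra hcon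
  rw [← Ultrafilter.eventually_not] at hcon
  have hex : ∀ i, ∃ c : K0, ¬ Transcendental K0 (comp U K0 x hx y h i) →
      algebraMap K0 (Fc U K0 x hx y i) c = comp U K0 x hx y h i := by
    intro i
    by_cases hi : Transcendental K0 (comp U K0 x hx y h i)
    · exact ⟨0, fun h' => (h' hi).elim⟩
    · have halg : IsAlgebraic K0 (comp U K0 x hx y h i) := by
        rwa [Transcendental, not_not] at hi
      have hint : IsIntegral K0 (comp U K0 x hx y h i) := halg.isIntegral
      have hdeg : (minpoly K0 (comp U K0 x hx y h i)).degree = 1 :=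
        IsAlgClosed.degree_eq_one_of_irreducible K0 (minpoly.irreducible hint)
      obtain ⟨c, hc⟩ := minpoly.mem_range_of_degree_eq_one K0 _ hdeg
      exact ⟨c, fun _ => hc⟩
  choose c hc using hex
  apply hh
  have hPsi : Psi U K0 x hx h =
      Psi U K0 x hx (algebraMap (KS U K0) F' ((c : ι → K0) : KS U K0)) := by
    rw [Psi_const, ← coe_rep]
    refine Germ.coe_eq.mpr ?_
    filter_upwards [hcon, coe_comp U K0 x hx y hy h] with i hi hch
    rw [← hch, ← hc i hi]
    rfl
  rw [Psi_injective U K0 x hx hPsi]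
  exact isAlgebraic_algebraMap _

end Fermat.Agent.S27lib.U.B
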