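/-
S27lib / U / B / Tower (helper9).

If `E` is finite over `K0(x₁)` and `t ∈ E` is transcendental over `K0` with a nontrivial relation
`q(t, x₁) = 0`, then `E` is finite over `K0(t)` and `[E : K0(t)] ≤ deg_X q · [E : K0(x₁)]`.
-/
import Mathlib
import Fermat.Agent.S27lib.U.B.Relation

set_option autoImplicit false
set_option linter.unusedSectionVars false
set_option linter.style.haveILetI false

noncomputable section

namespace Fermat.Agent.S27lib.U.B

open Polynomial IntermediateField Module

variable {K0 : Type*} [Field K0] {E : Type*} [Field E] [Algebra K0 E]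

/-- the specialisation `q(t, X)` as a polynomial over `K0(t)` -/
def specPoly (t : E) (q : K0[X][X]) : (K0⟮t⟯)[X] :=
  q.map ((aeval (AdjoinSimple.gen K0 t) : K0[X] →ₐ[K0] K0⟮t⟯) : K0[X] →+* K0⟮t⟯)

theorem natDegree_specPoly_le (t : E) (q : K0[X][X]) : (specPoly t q).natDegree ≤ q.natDegree :=
  natDegree_map_le

theorem specPoly_ne_zero {t : E} (ht : Transcendental K0 t) {q : K0[X][X]} (hq : q ≠ 0) :
    specPoly t q ≠ 0 := by
  have hgen : Transcendental K0 (AdjoinSimple.gen K0 t) := by
    intro halg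
    apply ht
    have := halg.algebraMap (A := E)
    rwa [AdjoinSimple.algebraMap_gen] at this
  have hinj : Function.Injective
      ((aeval (AdjoinSimple.gen K0 t) : K0[X] →ₐ[K0] K0⟮t⟯) : K0[X] →+* K0⟮t⟯) :=
    transcendental_iff_injective.mp hgen
  exact (Polynomial.map_ne_zero_iff hinj).mpr hq

theorem aeval_specPoly (t x₁ : E) (q : K0[X][X]) : aeval x₁ (specPoly t q) = ev2 t x₁ q := by
  rw [aeval_def, specPoly, eval₂_map, ev2]
  congr 1
  refine Polynomial.ringHom_ext (fun c => ?_) ?_
  · simp only [RingHom.comp_apply, RingHom.coe_coe, aeval_C]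
    rfl
  · simp only [RingHom.comp_apply, RingHom.coe_coe, aeval_X]
    rfl

theorem finrank_le_of_relation {t x₁ : E} (ht : Transcendental K0 t) {q : K0[X][X]} (hq0 : q ≠ 0)
    (hq : ev2 t x₁ q = 0) [FiniteDimensional K0⟮x₁⟯ E] :
    FiniteDimensional K0⟮t⟯ E ∧ finrank K0⟮t⟯ E ≤ q.natDegree * finrank K0⟮x₁⟯ E := by
  set L := K0⟮t⟯ with hL
  set r := specPoly t q with hr
  have hr0 : r ≠ 0 := specPoly_ne_zero ht hq0
  have hroot : aeval x₁ r = 0 := by rw [hr, aeval_specPoly, hq]
  have hint : IsIntegral L x₁ := (show IsAlgebraic L x₁ from ⟨r, hr0, hroot⟩).isIntegral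
  -- the intermediate field `M = L(x₁)`
  set M : IntermediateField L E := L⟮x₁⟯ with hM
  have hLM : finrank L M ≤ q.natDegree := by
    rw [hM, adjoin.finrank hint]
    exact (natDegree_le_of_dvd (minpoly.dvd L x₁ hroot) hr0).trans (natDegree_specPoly_le t q)
  haveI hfinLM : FiniteDimensional L M := adjoin.finiteDimensional hint
  -- `K0(x₁) ≤ M` over `K0`
  have hle : K0⟮x₁⟯ ≤ M.restrictScalars K0 := by
    rw [adjoin_simple_le_iff]
    exact mem_adjoin_simple_self L x₁
  have hME : finrank (M.restrictScalars K0) E ≤ finrank K0⟮x₁⟯ E :=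
    IntermediateField.finrank_le_of_le_left hle
  haveI hfinME : FiniteDimensional (M.restrictScalars K0) E := by
    let _ := (IntermediateField.inclusion hle).toAlgebra
    have : IsScalarTower K0⟮x₁⟯ (M.restrictScalars K0) E := .of_algebraMap_eq' rfl
    exact Module.Finite.right K0⟮x₁⟯ (M.restrictScalars K0) E
  have hME' : finrank M E ≤ finrank K0⟮x₁⟯ E := hME
  haveI hfinME' : FiniteDimensional M E := hfinME
  haveI : Module.Free L M := Module.Free.of_divisionRing L M
  haveI : Module.Free M E := Module.Free.of_divisionRing M E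
  refine ⟨Module.Finite.trans M E, ?_⟩
  rw [← Module.finrank_mul_finrank L M E]
  exact Nat.mul_le_mul hLM hME'

end Fermat.Agent.S27lib.U.B
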