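/-
S27lib / U / B / StepA (helper9).

Step A of the ultrapower transfer: for every `h ∈ F'`, `h ≠ 0`, the orders of the components
`comp h i` at ALL places of the component fields `Fc i` are bounded, uniformly in `i` (a.e.).
For non-constant `h` the bound is `[Fc i : K0(comp h i)] ≤ deg_X(p) · [F' : K*(x)]`.
-/
import Mathlib
import Fermat.Agent.S18lib.Weak.PolyAdapter
import Fermat.Agent.S27lib.U.B.RelComp
import Fermat.Agent.S27lib.U.B.Tower

set_option autoImplicit false
set_option linter.unusedSectionVars false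
set_option linter.style.haveILetI false

noncomputable section

namespace Fermat.Agent.S27lib.U.B

open Filter Polynomial IntermediateField Module AlgebraicCurve Fermat.Agent.S27lib.T4
  Fermat.Agent.S18lib

universe u v w

section Abstract

variable {K0 : Type*} [Field K0] {E : Type*} [Field E] [Algebra K0 E]

/-- a coefficient of an effective divisor is at most its degree (all places of degree one) -/
theorem apply_le_degree (hdeg : ∀ Q : Place K0 E, Q.deg = 1) {D : Divisor K0 E} (hD : 0 ≤ D)
    (Q : Place K0 E) : D Q ≤ Divisor.degree D := by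
  have h1 : Divisor.degree D = ∑ v ∈ D.support, D v := by
    rw [Divisor.degree, Finsupp.liftAddHom_apply, Finsupp.sum]
    refine Finset.sum_congr rfl fun v _ => ?_
    simp [hdeg v]
  rw [h1]
  by_cases hQ : Q ∈ D.support
  · exact Finset.single_le_sum (f := fun v => D v) (fun v _ => hD v) hQ
  · rw [Finsupp.notMem_support_iff.mp hQ]
    exact Finset.sum_nonneg fun v _ => hD v

variable [IsAlgClosed K0] [HasPrincipalDivisors K0 E]

/-- **the orders of a non-constant function are bounded by its degree** -/
theorem abs_ord_le_finrank (hdeg : ∀ Q : Place K0 E, Q.deg = 1) {t : E}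
    (ht : Transcendental K0 t) [FiniteDimensional K0⟮t⟯ E] [Algebra.IsSeparable K0⟮t⟯ E]
    (Q : Place K0 E) : |Q.ord t| ≤ (finrank K0⟮t⟯ E : ℤ) := by
  have hpole := degree_poleDiv_eq_finrank_adjoin K0 ht (F := E)
  have hzero := Tame.degree_zeroDiv (K := K0) t
  have h1 := apply_le_degree hdeg (Tame.poleDiv_nonneg (K := K0) t) Q
  have h2 := apply_le_degree hdeg (Tame.zeroDiv_nonneg (K := K0) t) Q
  rw [Tame.poleDiv_apply, hpole] at h1
  rw [Tame.zeroDiv_apply, hzero, hpole] at h2
  rw [abs_le]
  constructor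
  · have := le_max_left (-Q.ord t) 0
    omega
  · have := le_max_left (Q.ord t) 0
    omega

end Abstract

variable {ι : Type w} (U : Ultrafilter ι) (K0 : Type u) [Field K0]
variable {F' : Type v} [Field F'] [Algebra (KS U K0) F'] (x : F')
  (hx : Transcendental (KS U K0) x) [FiniteDimensional (KS U K0)⟮x⟯ F'] (y : F')
  (hy : (KS U K0)⟮x⟯⟮y⟯ = ⊤)

variable [IsAlgClosed K0]

include hy in
/-- **the degree of the components of a non-constant function is bounded** -/
theorem exists_finrank_comp_le {h : F'} (hh : Transcendental (KS U K0) h) :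
    ∃ B : ℕ, ∀ᶠ i in (U : Filter ι), Transcendental K0 (comp U K0 x hx y h i) ∧
      FiniteDimensional K0⟮comp U K0 x hx y h i⟯ (Fc U K0 x hx y i) ∧
      finrank K0⟮comp U K0 x hx y h i⟯ (Fc U K0 x hx y i) ≤ B := by
  obtain ⟨P, hP0, hP⟩ := exists_comp_relation U K0 x hx y hy h
  refine ⟨P.natDegree * finrank (KS U K0)⟮x⟯ F', ?_⟩
  filter_upwards [hP, bivAt_ne_zero K0 U hP0, transcendental_comp U K0 x hx y hy hh,
    finrank_Fc_le U K0 x hx y hy] with i hrel hne htr hd
  obtain ⟨hfin, hle⟩ := finrank_le_of_relation htr hne hrel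
  refine ⟨htr, hfin, hle.trans ?_⟩
  exact Nat.mul_le_mul (natDegree_bivAt_le K0 P i) hd

variable [CharZero K0]

instance charZero_Fc (i : ι) : CharZero (Fc U K0 x hx y i) :=
  charZero_of_injective_algebraMap (algebraMap K0 (Fc U K0 x hx y i)).injective

/-- the component fields are curves in the sense of `S18lib` -/
theorem exists_isCurveOfGenus_Fc (i : ι) : ∃ g : ℕ, IsCurveOfGenus K0 (Fc U K0 x hx y i) g := by
  haveI : CharZero K0⟮xc U K0 x hx y i⟯ :=
    charZero_of_injective_algebraMap (algebraMap K0 K0⟮xc U K0 x hx y i⟯).injective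
  exact ⟨_, RRgen.Canonical.isCurveOfGenus_genusOf K0 (transcendental_xc U K0 x hx y i)⟩

instance hasPrincipalDivisors_Fc (i : ι) : HasPrincipalDivisors K0 (Fc U K0 x hx y i) :=
  (exists_isCurveOfGenus_Fc U K0 x hx y i).choose_spec.hasPrincipalDivisors

theorem deg_eq_one_Fc (i : ι) (Q : Place K0 (Fc U K0 x hx y i)) : Q.deg = 1 :=
  (exists_isCurveOfGenus_Fc U K0 x hx y i).choose_spec.deg_eq_one Q

include hy in
/-- **Step A** -/
theorem exists_ord_bound {h : F'} (h0 : h ≠ 0) : ∃ B : ℕ, ∀ᶠ i in (U : Filter ι),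
    ∀ Q : Place K0 (Fc U K0 x hx y i), |Q.ord (comp U K0 x hx y h i)| ≤ (B : ℤ) := by
  by_cases hh : Transcendental (KS U K0) h
  · obtain ⟨B, hB⟩ := exists_finrank_comp_le U K0 x hx y hy hh
    refine ⟨B, ?_⟩
    filter_upwards [hB] with i hi Q
    obtain ⟨htr, hfin, hle⟩ := hi
    haveI := hfin
    haveI : CharZero K0⟮comp U K0 x hx y h i⟯ :=
      charZero_of_injective_algebraMap (algebraMap K0 K0⟮comp U K0 x hx y h i⟯).injective
    have := abs_ord_le_finrank (deg_eq_one_Fc U K0 x hx y i) htr Q
    exact this.trans (by exact_mod_cast hle)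
  · -- constants
    refine ⟨0, ?_⟩
    rw [Transcendental, not_not] at hh
    haveI : IsAlgClosed (KS U K0) := isAlgClosed_germ U K0
    have hint : IsIntegral (KS U K0) h := hh.isIntegral
    have hdeg : (minpoly (KS U K0) h).degree = 1 :=
      IsAlgClosed.degree_eq_one_of_irreducible _ (minpoly.irreducible hint)
    obtain ⟨c, hc⟩ := minpoly.mem_range_of_degree_eq_one (KS U K0) _ hdeg
    induction c using Germ.inductionOn with
    | _ c =>
    have hc0 : ((c : ι → K0) : KS U K0) ≠ 0 := by
      intro hz
      rw [hz, map_zero] at hc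
      exact h0 hc.symm
    have hc0' : ∀ᶠ i in (U : Filter ι), c i ≠ 0 := by
      by_contra hcon
      rw [← Ultrafilter.eventually_not] at hcon
      apply hc0
      refine Germ.coe_eq.mpr ?_
      filter_upwards [hcon] with i hi
      rw [not_not] at hi
      exact hi
    rw [← hc]
    filter_upwards [comp_const U K0 x hx y hy c, hc0'] with i hi hci Q
    rw [hi, Tame.ord_const Q hci]
    simp

end Fermat.Agent.S27lib.U.B
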